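import Fermat.Prelude.Def_AlgebraicGeometry_RelativePicardFunctor

/-!
# A group functor covered by copies of one affine cell

The formal input of the construction of the Jacobian: a Zariski sheaf of commutative groups on
`k`-schemes with open loci, each isomorphic to the same affine smooth cell, and covering.
-/

set_option autoImplicit false

noncomputable section

universe u

namespace FermatAgent.Jacobian

open CategoryTheory CategoryTheory.Limits AlgebraicGeometry AlgebraicGeometry.RelPicard NeronModelInfra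

/-- The restriction of an open subscheme to the base. -/
def openOver {k : Type u} [Field k] {T : Scheme.{u}} (t : T ⟶ Spec (CommRingCat.of k))
    (U : T.Opens) : SchemeHomOver (U.ι ≫ t) t :=
  ⟨U.ι, rfl⟩

/-- A commutative group functor on `k`-schemes. -/
structure GroupFunctor (k : Type u) [Field k] where
  obj : ∀ {T : Scheme.{u}}, (T ⟶ Spec (CommRingCat.of k)) → Type u
  [group : ∀ {T : Scheme.{u}} (t : T ⟶ Spec (CommRingCat.of k)), CommGroup (obj t)]
  map : ∀ {T T' : Scheme.{u}} {t : T ⟶ Spec (CommRingCat.of k)}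
    {t' : T' ⟶ Spec (CommRingCat.of k)}, SchemeHomOver t' t → obj t → obj t'
  map_mul : ∀ {T T' : Scheme.{u}} {t : T ⟶ Spec (CommRingCat.of k)}
    {t' : T' ⟶ Spec (CommRingCat.of k)} (ψ : SchemeHomOver t' t) (x y : obj t),
    map ψ (x * y) = map ψ x * map ψ y
  map_id : ∀ {T : Scheme.{u}} (t : T ⟶ Spec (CommRingCat.of k)) (x : obj t),
    map ⟨𝟙 T, Category.id_comp t⟩ x = x
  map_comp : ∀ {T T' T'' : Scheme.{u}} {t : T ⟶ Spec (CommRingCat.of k)}
    {t' : T' ⟶ Spec (CommRingCat.of k)} {t'' : T'' ⟶ Spec (CommRingCat.of k)}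
    (φ : SchemeHomOver t' t) (ψ : SchemeHomOver t'' t') (x : obj t),
    map ψ (map φ x) = map (postComp φ ψ) x
  /-- Separatedness for open covers. -/
  ext_open : ∀ {T : Scheme.{u}} (t : T ⟶ Spec (CommRingCat.of k)) {ι : Type u}
    (U : ι → T.Opens), (∀ p : T, ∃ i, p ∈ U i) → ∀ x y : obj t,
    (∀ i, map (openOver t (U i)) x = map (openOver t (U i)) y) → x = y
  /-- Gluing for open covers. -/
  glue_open : ∀ {T : Scheme.{u}} (t : T ⟶ Spec (CommRingCat.of k)) {ι : Type u}
    (U : ι → T.Opens), (∀ p : T, ∃ i, p ∈ U i) → ∀ x : ∀ i, obj ((U i).ι ≫ t),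
    (∀ i j (V : T.Opens) (hi : V ≤ U i) (hj : V ≤ U j),
      map (t' := V.ι ≫ t) ⟨T.homOfLE hi, by rw [← Category.assoc, Scheme.homOfLE_ι]⟩ (x i) =
        map (t' := V.ι ≫ t) ⟨T.homOfLE hj, by rw [← Category.assoc, Scheme.homOfLE_ι]⟩ (x j)) →
    ∃ z : obj t, ∀ i, map (openOver t (U i)) z = x i

attribute [instance] GroupFunctor.group

/-- Open loci in a group functor, each represented by one cell, and covering. -/
structure CellAtlas {k : Type u} [Field k] (G : GroupFunctor k) where
  ι : Type u
  Ring : Type u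
  [commRing : CommRing Ring]
  [algebra : Algebra k Ring]
  univ : ι → G.obj (Spec.map (CommRingCat.ofHom (algebraMap k Ring)))
  locus : ι → ∀ {T : Scheme.{u}} {t : T ⟶ Spec (CommRingCat.of k)}, G.obj t → T.Opens
  locus_map : ∀ (α : ι) {T T' : Scheme.{u}} {t : T ⟶ Spec (CommRingCat.of k)}
    {t' : T' ⟶ Spec (CommRingCat.of k)} (ψ : SchemeHomOver t' t) (x : G.obj t),
    locus α (G.map ψ x) = ψ.1 ⁻¹ᵁ locus α x
  locus_univ : ∀ α, locus α (univ α) = ⊤
  classify : ∀ (α : ι) {B : Type u} [CommRing B]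
    (t : Spec (CommRingCat.of B) ⟶ Spec (CommRingCat.of k)) (x : G.obj t), locus α x = ⊤ →
    ∃! g : SchemeHomOver t (Spec.map (CommRingCat.ofHom (algebraMap k Ring))),
      G.map g (univ α) = x
  cover : ∀ {T : Scheme.{u}} {t : T ⟶ Spec (CommRingCat.of k)} (x : G.obj t) (p : T),
    ∃ α, p ∈ locus α x

attribute [instance] CellAtlas.commRing CellAtlas.algebra

/-- A family on the curve generating the points. -/
structure GeneratingFamily {k : Type u} [Field k] (G : GroupFunctor k) {C : Scheme.{u}}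
    (c : C ⟶ Spec (CommRingCat.of k)) where
  elt : G.obj c
  n : ℕ
  generate : ∀ a : G.obj (𝟙 (Spec (CommRingCat.of k))),
    ∃ x : Fin n → SchemeHomOver (𝟙 (Spec (CommRingCat.of k))) c, a = ∏ i, G.map (x i) elt

/-- An object representing a group functor. -/
structure Represents {k : Type u} [Field k] (G : GroupFunctor k) where
  J : Scheme.{u}
  toBase : J ⟶ Spec (CommRingCat.of k)
  univ : G.obj toBase
  bijective : ∀ {T : Scheme.{u}} (t : T ⟶ Spec (CommRingCat.of k)),
    Function.Bijective fun g : SchemeHomOver t toBase => G.map g univ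

end FermatAgent.Jacobian
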