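import Fermat.Prelude.Def_AlgebraicGeometry_RelPicardAlgEquivZeroCut
import Fermat.Agent.Jacobian.Rep.Interface

/-!
# From a representing object to a designation

A group functor identified with the classes satisfying a condition gives, once represented, a
representing designation of that part of the relative Picard functor.
-/

set_option autoImplicit false

noncomputable section

universe u

namespace FermatAgent.Jacobian

open CategoryTheory CategoryTheory.Limits AlgebraicGeometry AlgebraicGeometry.RelPicard NeronModelInfra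
  GoodReductionJacobian

variable {k : Type u} [Field k] {C : Scheme.{u}} {c : C ⟶ Spec (CommRingCat.of k)}
  {ε : SchemeHomOver (𝟙 (Spec (CommRingCat.of k))) c}

/-- A group functor identified with the classes satisfying `P`. -/
structure PicModel (P : SubPicCondition c ε) where
  G : GroupFunctor k
  toBundle : ∀ {T : Scheme.{u}} (t : T ⟶ Spec (CommRingCat.of k)), G.obj t →
    RigidifiedLineBundle c ε t
  mem : ∀ {T : Scheme.{u}} (t : T ⟶ Spec (CommRingCat.of k)) (x : G.obj t), P.P t (toBundle t x)
  surj : ∀ {T : Scheme.{u}} (t : T ⟶ Spec (CommRingCat.of k)) (M : RigidifiedLineBundle c ε t),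
    P.P t M → ∃ x : G.obj t, Nonempty ((toBundle t x).L ≅ M.L)
  inj : ∀ {T : Scheme.{u}} (t : T ⟶ Spec (CommRingCat.of k)) (x y : G.obj t),
    Nonempty ((toBundle t x).L ≅ (toBundle t y).L) → x = y
  natural : ∀ {T T' : Scheme.{u}} {t : T ⟶ Spec (CommRingCat.of k)}
    {t' : T' ⟶ Spec (CommRingCat.of k)} (ψ : SchemeHomOver t' t) (x : G.obj t),
    Nonempty (((toBundle t x).pullbackAlong ψ).L ≅ (toBundle t' (G.map ψ x)).L)
  one : ∀ {T : Scheme.{u}} (t : T ⟶ Spec (CommRingCat.of k)),
    Nonempty ((toBundle t 1).L ≅ (RigidifiedLineBundle.unit (c := c) (ε := ε) t).L)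

namespace PicModel

variable {P : SubPicCondition c ε} (M : PicModel P) (J : Represents M.G)

/-- The designation of a representing object. -/
def designation : RelativePic0Designation k c where
  P := J.J
  toBase := J.toBase
  zeroSection := ((J.bijective (𝟙 _)).2 1).choose.1
  zeroSection_toBase := ((J.bijective (𝟙 _)).2 1).choose.2

/-- The universal class represents the part of the relative Picard functor. -/
theorem nonempty_represents : Nonempty (RepresentsRelSubPic c ε P (M.designation J)) := by
  refine ⟨{ poincare := M.toBundle J.toBase J.univ, poincare_mem := M.mem _ _,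
            univ := fun {T} t L hL => ?_, zero := ?_ }⟩
  · obtain ⟨x, hx⟩ := M.surj t L hL
    obtain ⟨g, hg⟩ := (J.bijective t).2 x
    refine ⟨g, ?_, fun g' hg' => (J.bijective t).1 (M.inj t _ _ ?_)⟩
    · obtain ⟨e⟩ := M.natural g J.univ
      exact ⟨e ≪≫ eqToIso (by rw [show M.G.map g J.univ = x from hg]) ≪≫ hx.some⟩
    · obtain ⟨e⟩ := M.natural g' J.univ
      obtain ⟨e'⟩ := hg'
      exact ⟨e.symm ≪≫ e' ≪≫ hx.some.symm ≪≫ eqToIso (congrArg (fun y => (M.toBundle t y).L) hg.symm)⟩
  · obtain ⟨g, hg⟩ : ∃ g : SchemeHomOver (𝟙 (Spec (CommRingCat.of k))) J.toBase,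
        g = ((J.bijective (𝟙 _)).2 1).choose := ⟨_, rfl⟩
    have h1 : M.G.map g J.univ = 1 := hg ▸ ((J.bijective (𝟙 _)).2 1).choose_spec
    obtain ⟨e⟩ := M.natural g J.univ
    obtain ⟨e1⟩ := M.one (𝟙 (Spec (CommRingCat.of k)))
    subst hg
    exact ⟨e ≪≫ eqToIso (by rw [h1]) ≪≫ e1⟩

end PicModel

end FermatAgent.Jacobian
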