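import Fermat.Agent.Jacobian.Rep.Represent
import Fermat.Agent.Jacobian.Glue.Properties

/-!
# Smoothness, properness and connectedness of the representing scheme
-/

set_option autoImplicit false

noncomputable section

universe u

open CategoryTheory CategoryTheory.Limits AlgebraicGeometry AlgebraicGeometry.RelPicard
  NeronModelInfra Opposite
open MonoidalCategory CartesianMonoidalCategory
open scoped MonObj

namespace FermatAgent.Jacobian

variable {k : Type u} [Field k] {G : GroupFunctor k}

/-- The group functor on `k`-schemes as a presheaf of groups. -/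
def GroupFunctor.groupPresheaf (G : GroupFunctor k) :
    (Over (Spec (CommRingCat.of k)))ᵒᵖ ⥤ GrpCat.{u} where
  obj X := GrpCat.of (G.obj X.unop.hom)
  map {X X'} φ := GrpCat.ofHom (MonoidHom.mk'
    (G.map (⟨φ.unop.left, Over.w φ.unop⟩ : SchemeHomOver X'.unop.hom X.unop.hom)) (G.map_mul _))
  map_id _ := GrpCat.hom_ext (MonoidHom.ext fun x => GroupFunctor.map_eq_self _ rfl x)
  map_comp {X X' X''} φ χ := GrpCat.hom_ext (MonoidHom.ext fun x =>
    (GroupFunctor.map_map (⟨φ.unop.left, Over.w φ.unop⟩ : SchemeHomOver X'.unop.hom X.unop.hom)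
      (⟨χ.unop.left, Over.w χ.unop⟩ : SchemeHomOver X''.unop.hom X'.unop.hom) _ rfl x).symm)

namespace Represents

variable (R : Represents G)

/-- The representing scheme over `k`. -/
abbrev asOver : Over (Spec (CommRingCat.of k)) := Over.mk R.toBase

/-- Morphisms over the base as morphisms in the over category. -/
def overHom {T : Scheme.{u}} {t : T ⟶ Spec (CommRingCat.of k)} (g : SchemeHomOver t R.toBase) :
    Over.mk t ⟶ R.asOver :=
  Over.homMk g.1 g.2

/-- The defining property in the over category. -/
def overEquiv (X : Over (Spec (CommRingCat.of k))) : (X ⟶ R.asOver) ≃ G.obj X.hom :=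
  ({ toFun := fun f => ⟨f.left, Over.w f⟩
     invFun := fun g => Over.homMk g.1 g.2
     left_inv := fun _ => Over.OverMorphism.ext rfl
     right_inv := fun _ => Subtype.ext rfl } : (X ⟶ R.asOver) ≃ SchemeHomOver X.hom R.toBase).trans
    (Equiv.ofBijective _ (R.bijective X.hom))

/-- The representation of the presheaf of groups. -/
def representableBy : (G.groupPresheaf ⋙ CategoryTheory.forget _).RepresentableBy R.asOver where
  homEquiv {X} := R.overEquiv X
  homEquiv_comp _ _ := (GroupFunctor.map_map _ _ _ rfl R.univ).symm

/-- The group law of the representing scheme. -/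
instance grpObj : GrpObj R.asOver :=
  GrpObj.ofRepresentableBy R.asOver G.groupPresheaf R.representableBy

/-- Points and sections, as groups. -/
def pointsMulEquiv (X : Over (Spec (CommRingCat.of k))) : (X ⟶ R.asOver) ≃* G.obj X.hom where
  toEquiv := R.overEquiv X
  map_mul' := ((yonedaMonObjIsoOfRepresentableBy R.asOver
    (G.groupPresheaf ⋙ forget₂ GrpCat MonCat) R.representableBy).hom.app (op X)).hom.map_mul

variable {C : Scheme.{u}} {c : C ⟶ Spec (CommRingCat.of k)} (F : GeneratingFamily G c)

/-- The map to the representing scheme given by the family. -/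
def familyHom : Over.mk c ⟶ R.asOver :=
  R.overHom ((R.bijective c).2 F.elt).choose

theorem forall_exists_eq_prod (x : 𝟙_ (Over (Spec (CommRingCat.of k))) ⟶ R.asOver) :
    ∃ p : Fin F.n → (𝟙_ (Over (Spec (CommRingCat.of k))) ⟶ Over.mk c),
      x = (List.ofFn fun i => p i ≫ R.familyHom F).prod := by
  obtain ⟨q, hq⟩ := F.generate (R.pointsMulEquiv _ x)
  refine ⟨fun i => Over.homMk (q i).1 (q i).2, (R.pointsMulEquiv _).injective ?_⟩
  rw [map_list_prod, List.map_ofFn, List.prod_ofFn]
  refine hq.trans (Finset.prod_congr rfl fun i _ => ?_)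
  show _ = G.map _ R.univ
  rw [← ((R.bijective c).2 F.elt).choose_spec]
  exact GroupFunctor.map_map _ _ _ rfl _

variable [IsAlgClosed k] [IsProper c] [LocallyOfFiniteType R.toBase]

/-- Properness and geometric connectedness from a generating family on a proper curve. -/
theorem isProper_and_geometricallyConnected [Smooth c] [IsIntegral C] (F : GeneratingFamily G c) :
    IsProper R.toBase ∧ GeometricallyConnected R.toBase := by
  have : IsProper (Over.mk c).hom := ‹IsProper c›
  have : Smooth (Over.mk c).hom := ‹Smooth c›
  have : IsIntegral (Over.mk c).left := ‹IsIntegral C›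
  have : LocallyOfFiniteType R.asOver.hom := ‹LocallyOfFiniteType R.toBase›
  exact isProper_and_geometricallyConnected_of_sum (R.familyHom F) (R.forall_exists_eq_prod F)

/-- A proper geometrically integral test scheme covering the representing scheme on geometric
points. -/
theorem exists_cover [Smooth c] [IsIntegral C] (F : GeneratingFamily G c) :
    ∃ (X : Scheme.{u}) (x : X ⟶ Spec (CommRingCat.of k)) (a : SchemeHomOver x R.toBase),
      IsProper x ∧ GeometricallyIntegral x ∧
        ∀ (K : Type u) [Field K] [IsAlgClosed K] (s : Spec (CommRingCat.of K) ⟶ R.J),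
          ∃ s' : Spec (CommRingCat.of K) ⟶ X, s' ≫ a.1 = s := by
  have : IsProper (Over.mk c).hom := ‹IsProper c›
  have : Smooth (Over.mk c).hom := ‹Smooth c›
  have : IsIntegral (Over.mk c).left := ‹IsIntegral C›
  have : LocallyOfFiniteType R.asOver.hom := ‹LocallyOfFiniteType R.toBase›
  have := geometricallyIntegral_of_isAlgClosed (Over.mk c).hom
  exact ⟨_, (curvePower (Over.mk c) F.n).hom,
    ⟨(powSum (R.familyHom F) F.n).left, Over.w (powSum (R.familyHom F) F.n)⟩,
    isProper_curvePower _ _, geometricallyIntegral_curvePower _ _,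
    fun K _ _ s => exists_lift_powSum (R.familyHom F) (R.forall_exists_eq_prod F) s⟩

end Represents

/-- A cell which is smooth and of finite type gives a smooth representing scheme. -/
theorem CellAtlas.exists_represents_smooth (A : CellAtlas G) [Algebra.FiniteType k A.Ring]
    [Algebra.FormallySmooth k A.Ring] : ∃ R : Represents G, Smooth R.toBase := by
  obtain ⟨R, j, hj, hcov, hbase, -⟩ := A.exists_represents
  have : Algebra.FinitePresentation k A.Ring := Algebra.FinitePresentation.of_finiteType.1 ‹_›
  have : Algebra.Smooth k A.Ring := ⟨inferInstance, inferInstance⟩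
  have hs : Smooth A.cellBase :=
    (HasRingHomProperty.Spec_iff (P := @Smooth)).2 (RingHom.smooth_algebraMap.2 ‹_›)
  let 𝒰 : R.J.OpenCover := Scheme.Cover.mkOfCovers A.ι (fun _ => A.cell) j
    (fun p => by obtain ⟨α, y, hy⟩ := hcov p; exact ⟨α, y, hy⟩) hj
  have : IsZariskiLocalAtSource @Smooth.{u} := by
    exact HasRingHomProperty.instIsZariskiLocalAtSource (Q := RingHom.Smooth)
  refine ⟨R, IsZariskiLocalAtSource.of_openCover (P := @Smooth) 𝒰 fun α => ?_⟩
  show Smooth (j α ≫ R.toBase)
  rw [hbase α]
  exact hs

/-- All properties together. -/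
theorem CellAtlas.exists_represents_properties [IsAlgClosed k] (A : CellAtlas G)
    [Algebra.FiniteType k A.Ring] [Algebra.FormallySmooth k A.Ring] {C : Scheme.{u}}
    {c : C ⟶ Spec (CommRingCat.of k)} [IsProper c] [Smooth c] [IsIntegral C]
    (F : GeneratingFamily G c) :
    ∃ R : Represents G, Smooth R.toBase ∧ IsProper R.toBase ∧ GeometricallyConnected R.toBase ∧
      ∃ (X : Scheme.{u}) (x : X ⟶ Spec (CommRingCat.of k)) (a : SchemeHomOver x R.toBase),
        IsProper x ∧ GeometricallyIntegral x ∧
          ∀ (K : Type u) [Field K] [IsAlgClosed K] (s : Spec (CommRingCat.of K) ⟶ R.J),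
            ∃ s' : Spec (CommRingCat.of K) ⟶ X, s' ≫ a.1 = s := by
  obtain ⟨R, hR⟩ := A.exists_represents_smooth
  exact ⟨R, hR, (R.isProper_and_geometricallyConnected F).1,
    (R.isProper_and_geometricallyConnected F).2, R.exists_cover F⟩

end FermatAgent.Jacobian
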