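import Fermat.Agent.Jacobian.Rep.Interface

/-!
# The cell classifies the locus on every test scheme
-/

set_option autoImplicit false

noncomputable section

universe u

open CategoryTheory CategoryTheory.Limits AlgebraicGeometry AlgebraicGeometry.RelPicard
  NeronModelInfra

namespace FermatAgent.Jacobian

variable {k : Type u} [Field k] {G : GroupFunctor k}

theorem GroupFunctor.map_map {T T' T'' : Scheme.{u}} {t : T ⟶ Spec (CommRingCat.of k)}
    {t' : T' ⟶ Spec (CommRingCat.of k)} {t'' : T'' ⟶ Spec (CommRingCat.of k)}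
    (φ : SchemeHomOver t' t) (ψ : SchemeHomOver t'' t') (χ : SchemeHomOver t'' t)
    (h : ψ.1 ≫ φ.1 = χ.1) (x : G.obj t) : G.map ψ (G.map φ x) = G.map χ x := by
  rw [G.map_comp, show postComp φ ψ = χ from Subtype.ext h]

theorem GroupFunctor.map_eq_self {T : Scheme.{u}} {t : T ⟶ Spec (CommRingCat.of k)}
    (φ : SchemeHomOver t t) (h : φ.1 = 𝟙 T) (x : G.obj t) : G.map φ x = x := by
  rw [show φ = ⟨𝟙 T, Category.id_comp t⟩ from Subtype.ext h, G.map_id]

namespace CellAtlas

variable (A : CellAtlas G)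

/-- The structure map of the cell. -/
abbrev cellBase : Spec (CommRingCat.of A.Ring) ⟶ Spec (CommRingCat.of k) :=
  Spec.map (CommRingCat.ofHom (algebraMap k A.Ring))

theorem locus_map_univ (α : A.ι) {T : Scheme.{u}} {t : T ⟶ Spec (CommRingCat.of k)}
    (g : SchemeHomOver t A.cellBase) : A.locus α (G.map g (A.univ α)) = ⊤ := by
  rw [A.locus_map, A.locus_univ]
  rfl

theorem classify_isAffine (α : A.ι) {T : Scheme.{u}} [IsAffine T]
    (t : T ⟶ Spec (CommRingCat.of k)) (x : G.obj t) (hx : A.locus α x = ⊤) :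
    ∃! g : SchemeHomOver t A.cellBase, G.map g (A.univ α) = x := by
  let i : SchemeHomOver (T.isoSpec.inv ≫ t) t := ⟨T.isoSpec.inv, rfl⟩
  let j : SchemeHomOver t (T.isoSpec.inv ≫ t) := ⟨T.isoSpec.hom, Iso.hom_inv_id_assoc _ _⟩
  obtain ⟨g, hg, hu⟩ := A.classify α _ (G.map i x) (by rw [A.locus_map, hx]; rfl)
  refine ⟨postComp g j, ?_, fun g' hg' => ?_⟩
  · show G.map (postComp g j) (A.univ α) = x
    rw [← G.map_comp, hg, G.map_comp]
    exact GroupFunctor.map_eq_self _ T.isoSpec.hom_inv_id x
  · have h : postComp g' i = g := hu (postComp g' i) (by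
      show G.map (postComp g' i) (A.univ α) = G.map i x
      rw [← G.map_comp, hg'])
    rw [← h]
    exact Subtype.ext (Iso.hom_inv_id_assoc _ _).symm

/-- The affine opens of a scheme as a cover. -/
abbrev affineOpensCover (T : Scheme.{u}) : T.OpenCover :=
  T.openCoverOfIsOpenCover (fun U : T.affineOpens => U.1) (iSup_affineOpens_eq_top T)

theorem classify_unique (α : A.ι) {T : Scheme.{u}} {t : T ⟶ Spec (CommRingCat.of k)}
    (g g' : SchemeHomOver t A.cellBase) (h : G.map g (A.univ α) = G.map g' (A.univ α)) :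
    g = g' := by
  refine Subtype.ext (Scheme.Cover.hom_ext (affineOpensCover T) _ _ fun U => ?_)
  have : IsAffine U.1.toScheme := U.2
  exact congrArg Subtype.val ((A.classify_isAffine α (U.1.ι ≫ t)
    (G.map (openOver t U.1) (G.map g (A.univ α))) (by
      rw [A.locus_map, A.locus_map_univ]; rfl)).unique
    (y₁ := postComp g (openOver t U.1)) (y₂ := postComp g' (openOver t U.1))
    (G.map_comp _ _ _).symm (by rw [h]; exact (G.map_comp _ _ _).symm))

/-- The cell classifies the sections with full locus on every scheme. -/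
theorem classify_all (α : A.ι) {T : Scheme.{u}} {t : T ⟶ Spec (CommRingCat.of k)} (x : G.obj t)
    (hx : A.locus α x = ⊤) : ∃! g : SchemeHomOver t A.cellBase, G.map g (A.univ α) = x := by
  have hloc : ∀ U : T.affineOpens, ∃ g : SchemeHomOver (U.1.ι ≫ t) A.cellBase,
      G.map g (A.univ α) = G.map (openOver t U.1) x := fun U => by
    have : IsAffine U.1.toScheme := U.2
    exact (A.classify_isAffine α _ _ (by rw [A.locus_map, hx]; rfl)).exists
  choose g hg using hloc
  let 𝒰 := affineOpensCover T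
  have compat : ∀ U V : T.affineOpens,
      pullback.fst U.1.ι V.1.ι ≫ (g U).1 = pullback.snd U.1.ι V.1.ι ≫ (g V).1 := fun U V => by
    let p : SchemeHomOver (pullback.fst U.1.ι V.1.ι ≫ U.1.ι ≫ t) (U.1.ι ≫ t) :=
      ⟨pullback.fst _ _, rfl⟩
    let q : SchemeHomOver (pullback.fst U.1.ι V.1.ι ≫ U.1.ι ≫ t) (V.1.ι ≫ t) :=
      ⟨pullback.snd _ _, by rw [pullback.condition_assoc]⟩
    refine congrArg Subtype.val (A.classify_unique α (postComp (g U) p) (postComp (g V) q) ?_)
    rw [← G.map_comp, ← G.map_comp, hg, hg,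
      G.map_map (openOver t V.1) q ⟨pullback.snd U.1.ι V.1.ι ≫ V.1.ι, by
        rw [Category.assoc, pullback.condition_assoc]⟩ rfl,
      G.map_map (openOver t U.1) p ⟨pullback.snd U.1.ι V.1.ι ≫ V.1.ι, by
        rw [Category.assoc, pullback.condition_assoc]⟩ pullback.condition]
  let f : T ⟶ Spec (CommRingCat.of A.Ring) :=
    Scheme.Cover.glueMorphisms 𝒰 (fun U => (g U).1) compat
  have hf : ∀ U : T.affineOpens, U.1.ι ≫ f = (g U).1 :=
    Scheme.Cover.ι_glueMorphisms 𝒰 _ compat
  let fo : SchemeHomOver t A.cellBase := ⟨f, Scheme.Cover.hom_ext 𝒰 _ _ fun U => by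
    exact (Category.assoc _ _ _).symm.trans
      ((congrArg (· ≫ A.cellBase) (hf U)).trans (g U).2)⟩
  have hfo : G.map fo (A.univ α) = x := G.ext_open t (fun U : T.affineOpens => U.1)
    (fun p => by
      simpa using (iSup_affineOpens_eq_top T).ge (Set.mem_univ p)) _ _ fun U => by
    rw [G.map_map fo (openOver t U.1) (g U) (hf U), hg]
  exact ⟨fo, hfo, fun g' hg' => A.classify_unique α g' fo (hg'.trans hfo.symm)⟩

end CellAtlas

end FermatAgent.Jacobian
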