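import Fermat.Agent.Jacobian.Rep.Classify

/-!
# The Zariski sheaf on schemes of the points of a group functor

A point over `T` is a structure map of `T` together with a section of the group functor.
-/

set_option autoImplicit false

noncomputable section

universe u

open CategoryTheory CategoryTheory.Limits AlgebraicGeometry AlgebraicGeometry.RelPicard
  NeronModelInfra Opposite

namespace FermatAgent.Jacobian

variable {k : Type u} [Field k] (G : GroupFunctor k)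

namespace GroupFunctor

/-- A structure map with a section over it. -/
abbrev Point (T : Scheme.{u}) : Type u :=
  Σ t : T ⟶ Spec (CommRingCat.of k), G.obj t

/-- The pullback of a point. -/
def pull {T T' : Scheme.{u}} (f : T' ⟶ T) (p : G.Point T) : G.Point T' :=
  ⟨f ≫ p.1, G.map (⟨f, rfl⟩ : SchemeHomOver (f ≫ p.1) p.1) p.2⟩

theorem mk_map_eq_pull {T T' : Scheme.{u}} {t : T ⟶ Spec (CommRingCat.of k)}
    {t' : T' ⟶ Spec (CommRingCat.of k)} (φ : SchemeHomOver t' t) (x : G.obj t) :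
    (⟨t', G.map φ x⟩ : G.Point T') = G.pull φ.1 ⟨t, x⟩ := by
  obtain ⟨f, rfl⟩ := φ
  rfl

theorem pull_id {T : Scheme.{u}} (p : G.Point T) : G.pull (𝟙 T) p = p := by
  obtain ⟨t, x⟩ := p
  refine ((G.mk_map_eq_pull ⟨𝟙 T, Category.id_comp t⟩ x).symm.trans ?_)
  rw [G.map_id]

theorem pull_pull {T T' T'' : Scheme.{u}} (f : T' ⟶ T) (g : T'' ⟶ T') (p : G.Point T) :
    G.pull g (G.pull f p) = G.pull (g ≫ f) p := by
  obtain ⟨t, x⟩ := p
  refine Eq.trans ?_ (G.mk_map_eq_pull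
    (⟨g ≫ f, Category.assoc _ _ _⟩ : SchemeHomOver (g ≫ f ≫ t) t) x)
  rw [← G.map_map (⟨f, rfl⟩ : SchemeHomOver (f ≫ t) t) (⟨g, rfl⟩ : SchemeHomOver (g ≫ f ≫ t) _)
    ⟨g ≫ f, Category.assoc _ _ _⟩ rfl x]
  rfl

theorem exists_eq_mk {T : Scheme.{u}} {t : T ⟶ Spec (CommRingCat.of k)} {p : G.Point T}
    (h : t = p.1) : ∃ x : G.obj t, p = ⟨t, x⟩ := by
  obtain ⟨s, x⟩ := p
  subst h
  exact ⟨x, rfl⟩

/-- Points agreeing on an open cover are equal. -/
theorem point_ext {T : Scheme.{u}} {ι : Type u} (U : ι → T.Opens) (hU : ∀ p : T, ∃ i, p ∈ U i)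
    (p q : G.Point T) (h : ∀ i, G.pull (U i).ι p = G.pull (U i).ι q) : p = q := by
  obtain ⟨t, x⟩ := p
  have ht : t = q.1 := Scheme.Cover.hom_ext
    (T.openCoverOfIsOpenCover U (TopologicalSpace.Opens.ext (Set.eq_univ_of_forall fun p => by
      simpa using hU p))) _ _ fun i => congrArg Sigma.fst (h i)
  obtain ⟨y, rfl⟩ := G.exists_eq_mk ht
  exact congrArg (Sigma.mk t) (G.ext_open t U hU x y fun i => eq_of_heq (Sigma.mk.inj (h i)).2)

/-- Compatible points on an open cover glue. -/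
theorem point_glue {T : Scheme.{u}} {ι : Type u} (U : ι → T.Opens) (hU : ∀ p : T, ∃ i, p ∈ U i)
    (z : ∀ i, G.Point (U i).toScheme)
    (hz : ∀ i j (W : Scheme.{u}) (a : W ⟶ (U i).toScheme) (b : W ⟶ (U j).toScheme),
      a ≫ (U i).ι = b ≫ (U j).ι → G.pull a (z i) = G.pull b (z j)) :
    ∃ p : G.Point T, ∀ i, G.pull (U i).ι p = z i := by
  let 𝒰 := T.openCoverOfIsOpenCover U (TopologicalSpace.Opens.ext (Set.eq_univ_of_forall fun p => by
    simpa using hU p))
  have compat : ∀ i j : ι, pullback.fst (U i).ι (U j).ι ≫ (z i).1 =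
      pullback.snd (U i).ι (U j).ι ≫ (z j).1 :=
    fun i j => congrArg Sigma.fst (hz i j _ _ _ pullback.condition)
  let t : T ⟶ Spec (CommRingCat.of k) := Scheme.Cover.glueMorphisms 𝒰 (fun i => (z i).1) compat
  have ht : ∀ i, (U i).ι ≫ t = (z i).1 := Scheme.Cover.ι_glueMorphisms 𝒰 _ compat
  choose x hx using fun i => G.exists_eq_mk (ht i)
  obtain ⟨y, hy⟩ := G.glue_open t U hU x fun i j V hi hj => by
    have h := hz i j V.toScheme (T.homOfLE hi) (T.homOfLE hj)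
      (by rw [Scheme.homOfLE_ι, Scheme.homOfLE_ι])
    rw [hx i, hx j] at h
    exact eq_of_heq (Sigma.mk.inj (Eq.trans (G.mk_map_eq_pull
      (⟨T.homOfLE hi, by rw [← Category.assoc, Scheme.homOfLE_ι]⟩ :
        SchemeHomOver (V.ι ≫ t) _) (x i)) (h.trans (G.mk_map_eq_pull
      (⟨T.homOfLE hj, by rw [← Category.assoc, Scheme.homOfLE_ι]⟩ :
        SchemeHomOver (V.ι ≫ t) _) (x j)).symm))).2
  refine ⟨⟨t, y⟩, fun i => ?_⟩
  rw [hx i, ← hy i]
  rfl

/-- The presheaf of points on schemes. -/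
def pointPresheaf : Scheme.{u}ᵒᵖ ⥤ Type u where
  obj T := G.Point T.unop
  map f := TypeCat.ofHom (G.pull f.unop)
  map_id _ := TypeCat.homEquiv.injective (funext fun p => G.pull_id p)
  map_comp f g := TypeCat.homEquiv.injective (funext fun p => (G.pull_pull f.unop g.unop p).symm)

theorem isSheaf_pointPresheaf : Presieve.IsSheaf Scheme.zariskiTopology G.pointPresheaf := by
  refine (Precoverage.isSheaf_toGrothendieck_iff_of_isStableUnderBaseChange _).2 fun X R hR => ?_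
  intro x hx
  have hcov : ∀ p : X, ∃ (Y : Scheme.{u}) (f : Y ⟶ X), R f ∧ p ∈ Set.range f := fun p => by
    obtain ⟨_, _, ⟨hf⟩, hp⟩ := hR.1 p
    exact ⟨_, _, hf, hp⟩
  choose Y f hf hmem using hcov
  have : ∀ p, IsOpenImmersion (f p) := fun p => hR.2 (hf p)
  let U : X → X.Opens := fun p => (f p).opensRange
  have hU : ∀ p : X, ∃ i, p ∈ U i := fun p => ⟨p, hmem p⟩
  let z : ∀ p, G.Point (U p).toScheme := fun p => G.pull (f p).isoOpensRange.inv (x (f p) (hf p))
  have hinv : ∀ p, (f p).isoOpensRange.inv ≫ f p = (U p).ι := fun p =>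
    (f p).isoOpensRange_inv_comp
  have key : ∀ ⦃W V₁ V₂ : Scheme.{u}⦄ (a : W ⟶ V₁) (b : W ⟶ V₂) (g₁ : V₁ ⟶ X) (g₂ : V₂ ⟶ X)
      (h₁ : R g₁) (h₂ : R g₂), a ≫ g₁ = b ≫ g₂ → G.pull a (x g₁ h₁) = G.pull b (x g₂ h₂) :=
    fun W V₁ V₂ a b g₁ g₂ h₁ h₂ h => hx a b h₁ h₂ h
  obtain ⟨P, hP⟩ := G.point_glue U hU z fun i j W a b hab =>
    ((G.pull_pull _ a _).trans (key (a ≫ (f i).isoOpensRange.inv) (b ≫ (f j).isoOpensRange.inv)
      (f i) (f j) (hf i) (hf j) (by rw [Category.assoc, Category.assoc, hinv, hinv, hab]))).trans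
      (G.pull_pull _ b _).symm
  refine ⟨P, fun W g hg => ?_, fun Q hQ => G.point_ext U hU Q P fun i => ?_⟩
  · refine G.point_ext (fun p : X => g ⁻¹ᵁ U p) (fun w => ⟨g w, hmem (g w)⟩) _ _ fun p => ?_
    show G.pull _ (G.pull g P) = _
    rw [G.pull_pull, ← morphismRestrict_ι, ← G.pull_pull, hP]
    exact (G.pull_pull _ _ _).trans (key (g ∣_ U p ≫ (f p).isoOpensRange.inv) (g ⁻¹ᵁ U p).ι
      (f p) g (hf p) hg (by rw [Category.assoc, hinv, morphismRestrict_ι]))
  · rw [hP, ← hinv i]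
    exact (G.pull_pull (f i) _ Q).symm.trans (congrArg (G.pull _) (hQ (f i) (hf i)))

/-- The Zariski sheaf of points. -/
abbrev pointSheaf : Sheaf Scheme.zariskiTopology.{u} (Type u) :=
  ⟨G.pointPresheaf, (isSheaf_iff_isSheaf_of_type _ _).2 G.isSheaf_pointPresheaf⟩

end GroupFunctor

end FermatAgent.Jacobian
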