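import Fermat.Agent.Jacobian.Rep.PointSheaf

/-!
# A covered group functor is represented by a scheme glued from cells
-/

set_option autoImplicit false

noncomputable section

universe u

open CategoryTheory CategoryTheory.Limits AlgebraicGeometry AlgebraicGeometry.RelPicard
  NeronModelInfra Opposite

namespace FermatAgent.Jacobian

variable {k : Type u} [Field k] {G : GroupFunctor k} (A : CellAtlas G)

namespace CellAtlas

/-- The cell. -/
abbrev cell : Scheme.{u} := Spec (CommRingCat.of A.Ring)

/-- The universal point over the cell in the chart `α`. -/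
abbrev univPoint (α : A.ι) : G.Point A.cell := ⟨A.cellBase, A.univ α⟩

/-- The chart `α` as a map to the sheaf of points. -/
def chart (α : A.ι) : yoneda.obj A.cell ⟶ G.pointPresheaf :=
  yonedaEquiv.symm (A.univPoint α)

/-- The locus of a point. -/
def pointLocus (α : A.ι) {T : Scheme.{u}} (p : G.Point T) : T.Opens := A.locus α p.2

theorem pointLocus_pull (α : A.ι) {T T' : Scheme.{u}} (f : T' ⟶ T) (p : G.Point T) :
    A.pointLocus α (G.pull f p) = f ⁻¹ᵁ A.pointLocus α p :=
  A.locus_map α _ p.2

theorem pointLocus_pull_univ (α : A.ι) {T : Scheme.{u}} (h : T ⟶ A.cell) :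
    A.pointLocus α (G.pull h (A.univPoint α)) = ⊤ :=
  A.locus_map_univ α _

theorem pull_univ_injective (α : A.ι) {T : Scheme.{u}} (a b : T ⟶ A.cell)
    (h : G.pull a (A.univPoint α) = G.pull b (A.univPoint α)) : a = b := by
  have h1 : b ≫ A.cellBase = a ≫ A.cellBase := (congrArg Sigma.fst h).symm
  exact congrArg Subtype.val (A.classify_unique α
    (⟨a, rfl⟩ : SchemeHomOver (a ≫ A.cellBase) A.cellBase) ⟨b, h1⟩
    (eq_of_heq (Sigma.mk.inj
      (h.trans (G.mk_map_eq_pull (⟨b, h1⟩ : SchemeHomOver (a ≫ A.cellBase) A.cellBase)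
        (A.univ α)).symm)).2))

theorem exists_classify (α : A.ι) {T : Scheme.{u}} (p : G.Point T) :
    ∃ cls : (A.pointLocus α p).toScheme ⟶ A.cell,
      G.pull cls (A.univPoint α) = G.pull (A.pointLocus α p).ι p := by
  obtain ⟨t, x⟩ := p
  obtain ⟨g, hg, -⟩ := A.classify_all α (G.map (openOver t (A.locus α x)) x)
    (by rw [A.locus_map]; exact (A.locus α x).ι_preimage_self)
  exact ⟨g.1, (G.mk_map_eq_pull g (A.univ α)).symm.trans
    ((congrArg (Sigma.mk _) hg).trans (G.mk_map_eq_pull (openOver t (A.locus α x)) x))⟩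

theorem isOpenImmersion_chart (α : A.ι) : IsOpenImmersion.presheaf (A.chart α) := by
  refine MorphismProperty.relative.of_exists fun T g => ?_
  obtain ⟨(p : G.Point T), rfl⟩ := yonedaEquiv.symm.surjective g
  obtain ⟨cls, hcls⟩ := A.exists_classify α p
  refine ⟨_, yoneda.map cls, (A.pointLocus α p).ι,
    IsPullback.of_forall_isPullback_app fun Z => ?_, inferInstance⟩
  rw [Types.isPullback_iff]
  refine ⟨?_, fun x y hxy => ?_, fun h₁ h₂ hh => ?_⟩
  · refine TypeCat.homEquiv.injective (funext fun h => ?_)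
    exact (G.pull_pull cls h _).symm.trans ((congrArg (G.pull h) hcls).trans (G.pull_pull _ h _))
  · exact (cancel_mono (A.pointLocus α p).ι).1 hxy.2
  · change G.pull h₁ (A.univPoint α) = G.pull h₂ p at hh
    have hU : h₂ ⁻¹ᵁ A.pointLocus α p = ⊤ :=
      (A.pointLocus_pull α h₂ p).symm.trans
        ((congrArg (A.pointLocus α) hh.symm).trans (A.pointLocus_pull_univ α h₁))
    let l : Z.unop ⟶ (A.pointLocus α p).toScheme :=
      IsOpenImmersion.lift (A.pointLocus α p).ι h₂ (by
        rintro _ ⟨z, rfl⟩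
        rw [Scheme.Opens.range_ι]
        exact (hU.ge (show z ∈ (⊤ : Z.unop.Opens) from trivial) :))
    have hl : l ≫ (A.pointLocus α p).ι = h₂ := IsOpenImmersion.lift_fac _ _ _
    refine ⟨l, A.pull_univ_injective α _ _ ?_, hl⟩
    exact (G.pull_pull cls l _).symm.trans ((congrArg (G.pull l) hcls).trans
      ((G.pull_pull _ l p).trans ((congrArg (fun m => G.pull m p) hl).trans hh.symm)))

theorem isLocallySurjective_chart :
    Presheaf.IsLocallySurjective Scheme.zariskiTopology (Sigma.desc A.chart) where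
  imageSieve_mem {T} s := by
    have hc : ∀ p : T, ∃ α, p ∈ A.pointLocus α (s : G.Point T) := fun p => A.cover _ p
    choose α hα using hc
    have hmem : Presieve.ofArrows (fun p => (A.pointLocus (α p) s).toScheme)
        (fun p => (A.pointLocus (α p) s).ι) ∈ Scheme.zariskiPrecoverage T :=
      (Scheme.ofArrows_mem_precoverage_iff _).2
        ⟨fun p => ⟨p, by rw [Scheme.Opens.range_ι]; exact hα p⟩, fun p => inferInstance⟩
    refine GrothendieckTopology.superset_covering _ ?_
      (Precoverage.Saturate.of _ _ hmem)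
    rintro W _ ⟨_, a, _, ⟨q⟩, rfl⟩
    obtain ⟨cls, hcls⟩ := A.exists_classify (α q) (s : G.Point T)
    refine ⟨(Sigma.ι (fun _ : A.ι => yoneda.obj A.cell) (α q)).app (op W) (a ≫ cls), ?_⟩
    have h : (Sigma.desc A.chart).app (op W)
        ((Sigma.ι (fun _ : A.ι => yoneda.obj A.cell) (α q)).app (op W) (a ≫ cls)) =
        (A.chart (α q)).app (op W) (a ≫ cls) := by
      rw [← NatTrans.comp_app_apply, Sigma.ι_desc]
    refine h.trans ((G.pull_pull cls a _).symm.trans ?_)
    rw [hcls]
    exact G.pull_pull _ _ _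

/-- The functor is represented by a scheme glued from the cells. -/
theorem exists_represents : ∃ (R : Represents G) (j : A.ι → (A.cell ⟶ R.J)),
    (∀ α, IsOpenImmersion (j α)) ∧ (∀ p : R.J, ∃ α, p ∈ Set.range (j α)) ∧
      (∀ α, j α ≫ R.toBase = A.cellBase) ∧
      ∀ (α : A.ι) (h : j α ≫ R.toBase = A.cellBase), G.map ⟨j α, h⟩ R.univ = A.univ α := by
  have := A.isLocallySurjective_chart
  let hf := A.isOpenImmersion_chart
  let e := Scheme.LocalRepresentability.representableBy (F := G.pointSheaf) (f := A.chart) hf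
  let J := (Scheme.LocalRepresentability.glueData (F := G.pointSheaf) (f := A.chart) hf).glued
  obtain ⟨u, hu⟩ : ∃ u : G.Point J, e.homEquiv (𝟙 J) = u := ⟨_, rfl⟩
  have he : ∀ {T : Scheme.{u}} (g : T ⟶ J), (e.homEquiv g : G.Point T) = G.pull g u := fun g => by
    rw [← hu]
    exact e.homEquiv_eq g
  obtain ⟨q, x⟩ := u
  let R : Represents G := ⟨J, q, x, fun {T} t => ⟨fun g g' hg => Subtype.ext ?_, fun y => ?_⟩⟩
  · refine ⟨R, fun α => Scheme.LocalRepresentability.toGlued (F := G.pointSheaf) (f := A.chart) hf α,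
      fun α => inferInstance,
      fun p => ?_, ?_⟩
    · obtain ⟨α, y, hy⟩ :=
        (Scheme.LocalRepresentability.glueData (F := G.pointSheaf) (f := A.chart) hf).ι_jointly_surjective p
      exact ⟨α, y, hy⟩
    · have key : ∀ α, G.pull (Scheme.LocalRepresentability.toGlued hf α) ⟨q, x⟩ = A.univPoint α :=
        fun α => by
        rw [← he]
        exact (Scheme.LocalRepresentability.yonedaGluedToSheaf_app_toGlued (F := G.pointSheaf)
          (f := A.chart) hf).trans
          (yonedaEquiv.apply_symm_apply _)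
      exact ⟨fun α => congrArg Sigma.fst (key α), fun α h =>
        eq_of_heq (Sigma.mk.inj ((G.mk_map_eq_pull _ x).trans (key α))).2⟩
  · refine e.homEquiv.injective ?_
    rw [he, he]
    exact (G.mk_map_eq_pull g x).symm.trans ((congrArg (Sigma.mk t) hg).trans
      (G.mk_map_eq_pull g' x))
  · obtain ⟨g, hg⟩ := e.homEquiv.surjective (⟨t, y⟩ : G.Point T)
    rw [he] at hg
    exact ⟨⟨g, congrArg Sigma.fst hg⟩,
      eq_of_heq (Sigma.mk.inj ((G.mk_map_eq_pull _ x).trans hg)).2⟩

end CellAtlas

end FermatAgent.Jacobian
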